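/-
Algebra of an etale chart of a curve: the ideal of the diagonal and of a rational point.
-/
import Mathlib

set_option autoImplicit false
set_option linter.unusedVariables false

universe u

open TensorProduct

noncomputable section

namespace Fermat.Agent.Jacobian

variable {k : Type u} [Field k] {S : Type u} [CommRing S] [Algebra k S]

/-- The coordinate difference on the square of a chart. -/
def chartDiff (g : MvPolynomial (Fin 1) k →ₐ[k] S) : S ⊗[k] S :=
  g (MvPolynomial.X 0) ⊗ₜ 1 - 1 ⊗ₜ g (MvPolynomial.X 0)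

/-- On the square of an etale chart, the diagonal is cut out by the coordinate difference and an
element which is idempotent modulo that difference. -/
theorem exists_ker_lmul'_eq_span (g : MvPolynomial (Fin 1) k →ₐ[k] S) (hg : g.Etale) :
    ∃ e : S ⊗[k] S, Algebra.TensorProduct.lmul' k e = 0 ∧
      e * (1 - e) ∈ Ideal.span {chartDiff g} ∧
        RingHom.ker (Algebra.TensorProduct.lmul' k (S := S)) = Ideal.span {chartDiff g, e} := by
  algebraize [g.toRingHom]
  have : IsScalarTower k (MvPolynomial (Fin 1) k) S := IsScalarTower.of_algHom g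
  obtain ⟨t, ht, ht1⟩ :=
    (Algebra.FormallyUnramified.iff_exists_tensorProduct (R := MvPolynomial (Fin 1) k) (S := S)).mp
      inferInstance
  let φ : S ⊗[k] S →ₐ[k] S ⊗[MvPolynomial (Fin 1) k] S := Algebra.TensorProduct.lift
    ((Algebra.TensorProduct.includeLeft (R := MvPolynomial (Fin 1) k) (S := MvPolynomial (Fin 1) k)
      (A := S) (B := S)).restrictScalars k)
    ((Algebra.TensorProduct.includeRight (R := MvPolynomial (Fin 1) k) (A := S)
      (B := S)).restrictScalars k) (fun _ _ => .all _ _)
  have hφ : ∀ a b : S, φ (a ⊗ₜ b) = a ⊗ₜ b := fun a b => by simp [φ]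
  have hφs : Function.Surjective φ := by
    intro y
    induction y using TensorProduct.induction_on with
    | zero => exact ⟨0, map_zero _⟩
    | tmul a b => exact ⟨a ⊗ₜ b, hφ a b⟩
    | add x y hx hy =>
      obtain ⟨a, rfl⟩ := hx
      obtain ⟨b, rfl⟩ := hy
      exact ⟨a + b, map_add _ _ _⟩
  have hl : ∀ x, Algebra.TensorProduct.lmul' (MvPolynomial (Fin 1) k) (φ x) =
      Algebra.TensorProduct.lmul' k x := by
    intro x
    induction x using TensorProduct.induction_on with
    | zero => simp
    | tmul a b => simp [hφ]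
    | add x y hx hy => simp [hx, hy]
  have hker : ∀ x, φ x = 0 → x ∈ Ideal.span {chartDiff g} := by
    intro x hx
    let mk := Ideal.Quotient.mk (Ideal.span {chartDiff g})
    let iL : S →ₐ[k] S ⊗[k] S := Algebra.TensorProduct.includeLeft
    let iR : S →ₐ[k] S ⊗[k] S := Algebra.TensorProduct.includeRight
    let mkA := Ideal.Quotient.mkₐ k (Ideal.span {chartDiff g})
    let q : MvPolynomial (Fin 1) k →ₐ[k] (S ⊗[k] S) ⧸ Ideal.span {chartDiff g} :=
      (mkA.comp iL).comp g
    let := q.toRingHom.toAlgebra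
    have hq : q = (mkA.comp iR).comp g := by
      refine MvPolynomial.algHom_ext fun i => ?_
      rw [Subsingleton.elim i 0]
      exact (Ideal.Quotient.eq).mpr (Ideal.mem_span_singleton_self _)
    let L : S →ₐ[MvPolynomial (Fin 1) k] (S ⊗[k] S) ⧸ Ideal.span {chartDiff g} :=
      ⟨(mkA.comp iL).toRingHom, fun p => rfl⟩
    let R' : S →ₐ[MvPolynomial (Fin 1) k] (S ⊗[k] S) ⧸ Ideal.span {chartDiff g} :=
      ⟨(mkA.comp iR).toRingHom, fun p => (DFunLike.congr_fun hq p).symm⟩
    have key : ∀ y, Algebra.TensorProduct.productMap L R' (φ y) = mk y := by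
      intro y
      induction y using TensorProduct.induction_on with
      | zero => simp
      | tmul a b =>
        rw [hφ, Algebra.TensorProduct.productMap_apply_tmul]
        show mk (a ⊗ₜ 1) * mk (1 ⊗ₜ b) = _
        rw [← map_mul]
        simp
      | add x y hx hy => simp only [map_add, hx, hy]
    rw [← Ideal.Quotient.eq_zero_iff_mem]
    show mk x = 0
    rw [← key, hx, map_zero]
  obtain ⟨t0, rfl⟩ := hφs t
  rw [hl] at ht1
  have he : Algebra.TensorProduct.lmul' k (1 - t0) = 0 := by rw [map_sub, map_one, ht1, sub_self]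
  have hK : ∀ x : S ⊗[k] S, Algebra.TensorProduct.lmul' k x = 0 →
      x * t0 ∈ Ideal.span {chartDiff g} := by
    intro x hx
    refine hker _ ?_
    have hmem : φ x ∈ KaehlerDifferential.ideal (MvPolynomial (Fin 1) k) S := by
      rw [KaehlerDifferential.ideal, RingHom.mem_ker]
      exact (hl x).trans hx
    rw [← KaehlerDifferential.span_range_eq_ideal] at hmem
    rw [map_mul]
    refine Submodule.span_induction ?_ (by simp) ?_ ?_ hmem
    · rintro _ ⟨s, rfl⟩
      exact ht s
    · intro a b _ _ ha hb
      rw [add_mul, ha, hb, add_zero]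
    · intro a b _ hb
      rw [smul_eq_mul, mul_assoc, hb, mul_zero]
  refine ⟨1 - t0, he, ?_, le_antisymm (fun x hx => ?_) ?_⟩
  · rw [sub_sub_cancel]
    exact hK _ he
  · rw [show x = x * (1 - t0) + x * t0 by ring]
    refine add_mem (Ideal.mul_mem_left _ _ (Ideal.subset_span (by simp))) ?_
    exact Ideal.span_mono (by simp) (hK x hx)
  · rw [Ideal.span_le]
    rintro x (rfl | rfl)
    · simp [chartDiff, RingHom.mem_ker]
    · exact he

/-- An etale chart over a field is injective on polynomials. -/
theorem etaleChart_injective [Nontrivial S] (g : MvPolynomial (Fin 1) k →ₐ[k] S) (hg : g.Etale) :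
    Function.Injective g := by
  algebraize [g.toRingHom]
  rw [injective_iff_map_eq_zero]
  intro r hr
  by_contra hr0
  have : IsSMulRegular S r :=
    IsSMulRegular.of_flat (S := S) (IsLeftRegular.isSMulRegular (IsRegular.of_ne_zero hr0).left)
  refine one_ne_zero (α := S) (this ?_)
  show r • (1 : S) = r • (0 : S)
  rw [Algebra.smul_def, mul_one, smul_zero]
  exact hr

/-- Evaluation of the first factor at a rational point. -/
def evalFst (φ : S →ₐ[k] k) : S ⊗[k] S →ₐ[k] S :=
  Algebra.TensorProduct.lift ((Algebra.ofId k S).comp φ) (AlgHom.id k S) (fun _ _ => .all _ _)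

theorem evalFst_chartDiff (g : MvPolynomial (Fin 1) k →ₐ[k] S) (φ : S →ₐ[k] k) :
    evalFst φ (chartDiff g) =
      g (MvPolynomial.C (φ (g (MvPolynomial.X 0))) - MvPolynomial.X 0) := by
  rw [map_sub, ← MvPolynomial.algebraMap_eq, AlgHom.commutes]
  simp [evalFst, chartDiff, Algebra.ofId_apply]

theorem evalFst_chartDiff_ne_zero [Nontrivial S] (g : MvPolynomial (Fin 1) k →ₐ[k] S)
    (hg : g.Etale) (φ : S →ₐ[k] k) : evalFst φ (chartDiff g) ≠ 0 := by
  rw [evalFst_chartDiff, map_ne_zero_iff _ (etaleChart_injective g hg), sub_ne_zero]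
  intro h
  have := congrArg MvPolynomial.totalDegree h
  simp at this

/-- The kernel of a rational point of an etale chart is locally generated by the coordinate. -/
theorem exists_mul_mem_span (g : MvPolynomial (Fin 1) k →ₐ[k] S) (hg : g.Etale)
    (φ : S →ₐ[k] k) : ∃ v : S, φ v ≠ 0 ∧
      ∀ s : S, φ s = 0 → v * s ∈ Ideal.span {evalFst φ (chartDiff g)} := by
  obtain ⟨e, he, he', hK⟩ := exists_ker_lmul'_eq_span g hg
  have hcomp : ∀ x, φ (evalFst φ x) = φ (Algebra.TensorProduct.lmul' k x) := by
    intro x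
    induction x using TensorProduct.induction_on with
    | zero => simp
    | tmul a b => simp [evalFst, Algebra.ofId_apply]
    | add x y hx hy => simp [hx, hy]
  refine ⟨1 - evalFst φ e, by simp [hcomp, he], fun s hs => ?_⟩
  have hmem : (1 ⊗ₜ s - s ⊗ₜ 1 : S ⊗[k] S) ∈ Ideal.span {chartDiff g, e} := by
    rw [← hK, RingHom.mem_ker]; simp
  obtain ⟨a, b, hab⟩ := Ideal.mem_span_pair.mp hmem
  obtain ⟨c, hc⟩ := Ideal.mem_span_singleton'.mp he'
  have h1 : evalFst φ a * evalFst φ (chartDiff g) + evalFst φ b * evalFst φ e = s := by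
    rw [← map_mul, ← map_mul, ← map_add, hab]
    simp [evalFst, Algebra.ofId_apply, hs]
  have h2 : evalFst φ c * evalFst φ (chartDiff g) = evalFst φ e * (1 - evalFst φ e) := by
    rw [← map_mul, hc, map_mul, map_sub, map_one]
  rw [Ideal.mem_span_singleton']
  refine ⟨(1 - evalFst φ e) * evalFst φ a + evalFst φ b * evalFst φ c, ?_⟩
  linear_combination (1 - evalFst φ e) * h1 + evalFst φ b * h2

/-- The local ring at a rational point of an etale chart is a discrete valuation ring. -/
theorem isDiscreteValuationRing_of_etaleChart [IsDomain S] [IsNoetherianRing S]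
    (g : MvPolynomial (Fin 1) k →ₐ[k] S) (hg : g.Etale) (φ : S →ₐ[k] k) (Sm : Type u)
    [CommRing Sm] [IsDomain Sm] [Algebra S Sm] (P : Ideal S) [P.IsPrime]
    [IsLocalization.AtPrime Sm P] (hP : P = RingHom.ker φ) : IsDiscreteValuationRing Sm := by
  subst hP
  have hloc : IsLocalRing Sm := IsLocalization.AtPrime.isLocalRing Sm (RingHom.ker φ)
  have : IsNoetherianRing Sm :=
    IsLocalization.isNoetherianRing (RingHom.ker φ).primeCompl Sm inferInstance
  obtain ⟨v, hv, hmem⟩ := exists_mul_mem_span g hg φ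
  have hd : φ (evalFst φ (chartDiff g)) = 0 := by
    simp [evalFst, chartDiff, Algebra.ofId_apply]
  have hmax : IsLocalRing.maximalIdeal Sm =
      Ideal.span {algebraMap S Sm (evalFst φ (chartDiff g))} := by
    rw [← IsLocalization.AtPrime.map_eq_maximalIdeal (RingHom.ker φ) Sm]
    refine le_antisymm (Ideal.map_le_iff_le_comap.mpr fun s hs => ?_) ?_
    · have hu : IsUnit (algebraMap S Sm v) :=
        IsLocalization.map_units Sm (⟨v, hv⟩ : (RingHom.ker φ).primeCompl)
      obtain ⟨a, ha⟩ := Ideal.mem_span_singleton'.mp (hmem s hs)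
      rw [Ideal.mem_comap, Ideal.mem_span_singleton']
      refine ⟨algebraMap S Sm a * ↑hu.unit⁻¹, hu.mul_left_cancel ?_⟩
      rw [← map_mul (algebraMap S Sm) v s, ← ha, map_mul]
      linear_combination
        (algebraMap S Sm a * algebraMap S Sm (evalFst φ (chartDiff g))) * hu.mul_val_inv
    · rw [Ideal.span_singleton_le_iff_mem]
      exact Ideal.mem_map_of_mem _ hd
  have hne : algebraMap S Sm (evalFst φ (chartDiff g)) ≠ 0 := by
    rw [map_ne_zero_iff _ (IsLocalization.injective Sm
      (RingHom.ker φ).primeCompl_le_nonZeroDivisors)]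
    exact evalFst_chartDiff_ne_zero g hg φ
  have hnf : ¬ IsField Sm := by
    rw [IsLocalRing.isField_iff_maximalIdeal_eq, hmax, Ideal.span_singleton_eq_bot]
    exact hne
  exact ((IsDiscreteValuationRing.TFAE Sm hnf).out 0 4 : IsDiscreteValuationRing Sm ↔
    (IsLocalRing.maximalIdeal Sm).IsPrincipal).mpr ⟨⟨_, hmax⟩⟩

end Fermat.Agent.Jacobian
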