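/-
Etale charts of a smooth curve; its affine rings are Dedekind domains; geometric integrality.
-/
import Fermat.Agent.AbVar.Product
import Fermat.Agent.Jacobian.Core.Targets
import Fermat.Agent.Jacobian.Curve.Chart

set_option autoImplicit false
set_option linter.unusedVariables false

universe u

open CategoryTheory CategoryTheory.Limits AlgebraicGeometry TopologicalSpace Opposite
open Fermat.Agent.AbVar (secMap secAlgebra)

noncomputable section

namespace Fermat.Agent.Jacobian

variable {k : Type u} [Field k] {C : Scheme.{u}} (c : C ⟶ Spec (CommRingCat.of k))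

/-- A smooth curve has etale charts to the line near every point. -/
theorem exists_curveChart [SmoothOfRelativeDimension 1 c] (x : C) :
    ∃ (V : C.Opens) (_ : IsAffineOpen V) (_ : x ∈ V),
      letI := secAlgebra c V
      ∃ g : MvPolynomial (Fin 1) k →ₐ[k] Γ(C, V), g.Etale := by
  obtain ⟨U, hU, V, hV, hx, e, hf⟩ :=
    SmoothOfRelativeDimension.exists_isStandardSmoothOfRelativeDimension (n := 1) (f := c) x
  have hU' : U = ⊤ := eq_top_iff.mpr fun q _ => by
    rw [Subsingleton.elim q (c x)]
    exact e hx
  subst hU'
  have hs : (secMap c V).IsStandardSmoothOfRelativeDimension 1 :=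
    RingHom.isStandardSmoothOfRelativeDimension_respectsIso.2 _
      (Scheme.ΓSpecIso (CommRingCat.of k)).symm.commRingCatIsoToRingEquiv hf
  obtain ⟨g, hg, hge⟩ := hs.exists_etale_mvPolynomial
  exact ⟨V, hV, hx, letI := secAlgebra c V; ⟨⟨g, fun r => DFunLike.congr_fun hg r⟩, hge⟩⟩

/-- The sections on an affine open are of finite type over the field. -/
theorem finiteType_sec [LocallyOfFiniteType c] {V : C.Opens} (hV : IsAffineOpen V) :
    letI := secAlgebra c V
    Algebra.FiniteType k Γ(C, V) :=
  RingHom.FiniteType.comp (c.finiteType_appLE (isAffineOpen_top _) hV _)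
    (.of_surjective _
      (Scheme.ΓSpecIso (CommRingCat.of k)).symm.commRingCatIsoToRingEquiv.surjective)

theorem isNoetherianRing_sec [LocallyOfFiniteType c] {V : C.Opens} (hV : IsAffineOpen V) :
    IsNoetherianRing Γ(C, V) :=
  let := secAlgebra c V
  have := finiteType_sec c hV
  Algebra.FiniteType.isNoetherianRing k Γ(C, V)

variable [IsAlgClosed k] [IsIntegral C] [LocallyOfFiniteType c]

/-- The local ring of a smooth curve at a closed point is a discrete valuation ring. -/
theorem isDiscreteValuationRing_stalk [SmoothOfRelativeDimension 1 c] {x : C}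
    (hx : IsClosed {x}) : IsDiscreteValuationRing (C.presheaf.stalk x) := by
  obtain ⟨V, hV, hxV, g, hg⟩ := exists_curveChart c x
  let := secAlgebra c V
  have : Nonempty V := ⟨⟨x, hxV⟩⟩
  have := finiteType_sec c hV
  have := isNoetherianRing_sec c hV
  have hm := hV.primeIdealOf_isMaximal_of_isClosed ⟨x, hxV⟩ hx
  set m := (hV.primeIdealOf ⟨x, hxV⟩).asIdeal with hmdef
  let := Ideal.Quotient.field m
  have : Module.Finite k (Γ(C, V) ⧸ m) :=
    finite_of_finite_type_of_isJacobsonRing k (Γ(C, V) ⧸ m)
  let eqv : k ≃ₐ[k] Γ(C, V) ⧸ m :=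
    AlgEquiv.ofBijective (Algebra.ofId k (Γ(C, V) ⧸ m))
      IsAlgClosed.algebraMap_bijective_of_isIntegral
  let φ : Γ(C, V) →ₐ[k] k := eqv.symm.toAlgHom.comp (Ideal.Quotient.mkₐ k m)
  have hφ : m = RingHom.ker φ := by
    ext a
    simp [φ, RingHom.mem_ker, Ideal.Quotient.eq_zero_iff_mem]
  let : Algebra Γ(C, V) (C.presheaf.stalk x) :=
    TopCat.Presheaf.algebra_section_stalk C.presheaf (⟨x, hxV⟩ : V)
  have : IsLocalization.AtPrime (C.presheaf.stalk x) m := hV.isLocalization_stalk ⟨x, hxV⟩
  exact isDiscreteValuationRing_of_etaleChart g hg φ (C.presheaf.stalk x) m hφ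

/-- The localisation of an affine ring of a smooth curve at a maximal ideal is a discrete
valuation ring. -/
theorem isDiscreteValuationRing_localization [SmoothOfRelativeDimension 1 c] {U : C.Opens}
    (hU : IsAffineOpen U) [Nonempty U] (m : Ideal Γ(C, U)) [m.IsMaximal] :
    IsDiscreteValuationRing (Localization.AtPrime m) := by
  have : JacobsonSpace C := LocallyOfFiniteType.jacobsonSpace c
  let y : Spec Γ(C, U) := ⟨m, inferInstance⟩
  have hy : hU.fromSpec y ∈ U := by
    have : hU.fromSpec y ∈ Set.range hU.fromSpec := Set.mem_range_self _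
    rwa [hU.range_fromSpec] at this
  have hcl : IsClosed {hU.fromSpec y} := by
    have : y ∈ closedPoints (Spec Γ(C, U)) :=
      (PrimeSpectrum.isClosed_singleton_iff_isMaximal y).mpr ‹_›
    rw [← hU.fromSpec.isOpenEmbedding.preimage_closedPoints] at this
    exact this
  let : Algebra Γ(C, U) (C.presheaf.stalk (hU.fromSpec y)) :=
    TopCat.Presheaf.algebra_section_stalk C.presheaf (⟨hU.fromSpec y, hy⟩ : U)
  have : IsLocalization.AtPrime (C.presheaf.stalk (hU.fromSpec y)) m :=
    hU.isLocalization_stalk' y hy
  have := isDiscreteValuationRing_stalk c hcl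
  exact IsDiscreteValuationRing.RingEquivClass.isDiscreteValuationRing
    (IsLocalization.algEquiv m.primeCompl (C.presheaf.stalk (hU.fromSpec y))
      (Localization.AtPrime m))

/-- A nonempty affine open of a smooth curve is not a point. -/
theorem not_isField_sec [SmoothOfRelativeDimension 1 c] {U : C.Opens} (hU : IsAffineOpen U)
    [Nonempty U] : ¬ IsField Γ(C, U) := by
  intro hf
  obtain ⟨m, hm⟩ := Ideal.exists_maximal Γ(C, U)
  have := isDiscreteValuationRing_localization c hU m
  refine IsDiscreteValuationRing.not_a_field (Localization.AtPrime m) ?_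
  let := hf.toField
  have h0 : m = ⊥ := (Ideal.eq_bot_or_top m).resolve_right hm.ne_top
  rw [← Localization.AtPrime.map_eq_maximalIdeal]
  rw [Ideal.map_eq_bot_iff_le_ker]
  exact h0.le.trans bot_le

/-- Affine rings of a smooth curve are Dedekind domains. -/
theorem isDedekindDomain_sec [SmoothOfRelativeDimension 1 c] {U : C.Opens} (hU : IsAffineOpen U)
    [Nonempty U] : IsDedekindDomain Γ(C, U) := by
  have := isNoetherianRing_sec c hU
  have : IsDedekindDomainDvr Γ(C, U) :=
    { __ := (inferInstance : IsNoetherian Γ(C, U) Γ(C, U))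
      is_dvr_at_nonzero_prime := fun P hP hPp => by
        obtain ⟨m, hm, hle⟩ := Ideal.exists_le_maximal P hPp.ne_top
        have := isDiscreteValuationRing_localization c hU m
        have hdisj : Disjoint (m.primeCompl : Set Γ(C, U)) P :=
          Set.disjoint_left.mpr fun a ha haP => ha (hle haP)
        have hp' := IsLocalization.isPrime_of_isPrime_disjoint m.primeCompl
          (Localization.AtPrime m) P hPp hdisj
        have hne : P.map (algebraMap Γ(C, U) (Localization.AtPrime m)) ≠ ⊥ := by
          rw [Ne, Ideal.map_eq_bot_iff_of_injective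
            (IsLocalization.injective _ m.primeCompl_le_nonZeroDivisors)]
          exact hP
        obtain ⟨Q, -, hQ⟩ := ((IsDiscreteValuationRing.iff_pid_with_one_nonzero_prime
          (Localization.AtPrime m)).mp this).2
        have he : P.map (algebraMap Γ(C, U) (Localization.AtPrime m)) =
            IsLocalRing.maximalIdeal _ :=
          (hQ _ ⟨hne, hp'⟩).trans
            (hQ _ ⟨IsDiscreteValuationRing.not_a_field _, inferInstance⟩).symm
        have hPm : P = m := by
          have h1 := IsLocalization.under_map_of_isPrime_disjoint m.primeCompl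
            (Localization.AtPrime m) hPp hdisj
          have h2 := IsLocalization.AtPrime.under_maximalIdeal (Localization.AtPrime m) m
          rw [he] at h1
          exact h1.symm.trans h2
        subst hPm
        exact this }
  infer_instance

omit [LocallyOfFiniteType c] in
/-- A smooth curve over an algebraically closed field is geometrically integral. -/
theorem geometricallyIntegral_curve [LocallyOfFiniteType c] : GeometricallyIntegral c :=
  ⟨fun K _ y Z fst snd h => by
    have := Fermat.Agent.AbVar.isIntegral_product c y
    exact IsIntegral.of_isIso h.isoPullback.inv⟩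

/-- A smooth curve has more than one point. -/
theorem exists_ne_point [SmoothOfRelativeDimension 1 c] : ∃ x y : C, x ≠ y := by
  have : JacobsonSpace C := LocallyOfFiniteType.jacobsonSpace c
  obtain ⟨x, hx⟩ : ∃ x : C, IsClosed {x} := by
    obtain ⟨x, -, hx⟩ := nonempty_inter_closedPoints (X := C) (Z := Set.univ) Set.univ_nonempty
      isClosed_univ.isLocallyClosed
    exact ⟨x, hx⟩
  refine ⟨x, genericPoint C, fun h => ?_⟩
  subst h
  have := isDiscreteValuationRing_stalk c hx
  refine IsDiscreteValuationRing.not_a_field (C.presheaf.stalk (genericPoint C)) ?_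
  exact IsLocalRing.isField_iff_maximalIdeal_eq.mp
    (show IsField C.functionField from Field.toIsField _)

/-- Basic properties of a smooth curve over an algebraically closed field. -/
theorem curveBasicsProperty [SmoothOfRelativeDimension 1 c] : CurveBasicsProperty c :=
  ⟨geometricallyIntegral_curve c, fun U hU hne =>
    have : Nonempty U := hne.to_subtype
    ⟨isDedekindDomain_sec c hU, not_isField_sec c hU⟩⟩

end Fermat.Agent.Jacobian
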