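/-
Divisors from local equations, and their pullbacks along cartesian squares.
-/
import Fermat.Agent.Jacobian.Core.Defs
import Fermat.Agent.Jacobian.Divisor.Equations

set_option autoImplicit false
set_option linter.unusedVariables false

universe u

open CategoryTheory CategoryTheory.Limits AlgebraicGeometry TopologicalSpace Opposite

noncomputable section

namespace Fermat.Agent.Jacobian

variable {X : Scheme.{u}}

/-- Ideals on an affine open are determined locally. -/
theorem ideal_eq_of_locally {W : X.Opens} (hW : IsAffineOpen W) {I J : Ideal Γ(X, W)}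
    (h : ∀ p ∈ W, ∃ (V : X.Opens) (_ : p ∈ V) (hV : V ≤ W), I.map (res hV) = J.map (res hV)) :
    I = J := by
  rw [hW.ideal_ext_iff]
  intro p hp
  obtain ⟨V, hpV, hV, he⟩ := h p hp
  have := congrArg (Ideal.map (X.presheaf.germ V p hpV).hom) he
  simpa only [Ideal.map_map, ← CommRingCat.hom_comp, TopCat.Presheaf.germ_res] using this

/-- Regularity may be tested on a family of affine opens. -/
theorem regularOn_of_affine {U : X.Opens} (f : Γ(X, U))
    (h : ∀ p ∈ U, ∃ (V : X.Opens) (_ : p ∈ V) (hV : V ≤ U), ∀ (W : X.Opens),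
      IsAffineOpen W → ∀ hW : W ≤ V, IsRegular (res (hW.trans hV) f)) : RegularOn f := by
  intro V hV
  rw [isRegular_iff_eq_zero_of_mul]
  have key : ∀ a : Γ(X, V), a * res hV f = 0 → a = 0 := by
    intro a ha
    have hcov : ∀ p : V, ∃ (W : X.Opens) (_ : p.1 ∈ W) (hW : W ≤ V),
        res hW a = 0 := by
      rintro ⟨p, hp⟩
      obtain ⟨V', hpV', hV', hreg⟩ := h p (hV hp)
      obtain ⟨_, ⟨W, hW, rfl⟩, hpW, hWle⟩ := X.isBasis_affineOpens.exists_subset_of_mem_open
        (show p ∈ ((V ⊓ V' : X.Opens) : Set X) from ⟨hp, hpV'⟩) (V ⊓ V').isOpen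
      have h1 : W ≤ V := fun q hq => (hWle hq).1
      have h2 : W ≤ V' := fun q hq => (hWle hq).2
      refine ⟨W, hpW, h1, (hreg W hW h2).right.mul_right_eq_zero_iff.mp ?_⟩
      have := congrArg (res h1) ha
      rwa [map_mul, map_zero, res_res] at this
    choose W hm hW ha' using hcov
    refine X.sheaf.eq_of_locally_eq' W V (fun p => homOfLE (hW p))
      (fun p hp => Opens.mem_iSup.mpr ⟨⟨p, hp⟩, hm _⟩) a 0 fun p => ?_
    show res (hW p) a = res (hW p) (0 : Γ(X, V))
    rw [map_zero]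
    exact ha' p
  exact ⟨fun a ha => key a (by rwa [mul_comm]), key⟩

/-- Regular functions which are locally associated are associated. -/
theorem associated_of_cover {ι : Type*} {U : X.Opens} (V : ι → X.Opens) (hV : ∀ i, V i ≤ U)
    (hU : U ≤ iSup V) (a b : Γ(X, U)) (hb : RegularOn b)
    (h : ∀ i, Associated (res (hV i) b) (res (hV i) a)) : Associated b a := by
  choose u hu using fun i => h i
  obtain ⟨t, ht, -⟩ := LineSys.existsUnique_glue_units V U hV hU u fun i j => by
    refine Units.ext ((hb (V i ⊓ V j) (inf_le_left.trans (hV i))).left ?_)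
    show res _ b * res _ (u i : Γ(X, V i)) = res _ b * res _ (u j : Γ(X, V j))
    conv_lhs => rw [← res_res (hV i) (inf_le_left : V i ⊓ V j ≤ V i), ← map_mul, hu, res_res]
    conv_rhs => rw [← res_res (hV j) (inf_le_right : V i ⊓ V j ≤ V j), ← map_mul, hu, res_res]
  refine ⟨t, X.sheaf.eq_of_locally_eq' V U (fun i => homOfLE (hV i)) hU _ _ fun i => ?_⟩
  show res (hV i) (b * (t : Γ(X, U))) = res (hV i) a
  rw [map_mul, ← hu i, ← ht i]
  rfl

/-- Regular generators of the same principal ideal are associated. -/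
theorem associated_generators {R : Type*} [CommRing R] {a b : R} (ha : IsRegular a)
    (h : Ideal.span {a} = Ideal.span {b}) : Associated a b := by
  obtain ⟨v, hv⟩ := Ideal.mem_span_singleton'.mp (h ▸ Ideal.mem_span_singleton_self b)
  obtain ⟨w, hw⟩ := Ideal.mem_span_singleton'.mp (h.symm ▸ Ideal.mem_span_singleton_self a)
  have hwv : w * v = 1 := ha.right (by show w * v * a = 1 * a; rw [mul_assoc, hv, hw, one_mul])
  exact ⟨⟨v, w, (mul_comm _ _).trans hwv, hwv⟩, (mul_comm _ _).trans hv⟩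

/-- The kernel of a morphism on affine opens is compatible with restriction. -/
theorem map_ker_app {Z : Scheme.{u}} (i : Z ⟶ X) [QuasiCompact i] {W V : X.Opens}
    (hW : IsAffineOpen W) (hV : IsAffineOpen V) (h : W ≤ V) :
    (RingHom.ker (i.app V).hom).map (res h) = RingHom.ker (i.app W).hom := by
  have := i.ker.map_ideal (U := ⟨W, hW⟩) (V := ⟨V, hV⟩) h
  rwa [Scheme.Hom.ker_apply, Scheme.Hom.ker_apply] at this

/-- A subscheme locally cut out by one regular equation gives a divisor. -/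
theorem exists_lineDivisor {Z : Scheme.{u}} (i : Z ⟶ X) [QuasiCompact i]
    (h : ∀ p : X, ∃ (W : X.Opens) (_ : IsAffineOpen W) (_ : p ∈ W) (f : Γ(X, W)),
      RegularOn f ∧ RingHom.ker (i.app W).hom = Ideal.span {f}) :
    Nonempty (LineDivisor i) := by
  choose U hU hm f hreg hker using h
  have hspan : ∀ (x : X) (W : X.Opens), IsAffineOpen W → ∀ hx : W ≤ U x,
      RingHom.ker (i.app W).hom = Ideal.span {res hx (f x)} := fun x W hW hx => by
    rw [← map_ker_app i hW (hU x) hx, hker, Ideal.map_span, Set.image_singleton]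
  have hassoc : ∀ x y : X, Associated (res (inf_le_right : U x ⊓ U y ≤ U y) (f y))
      (res inf_le_left (f x)) := by
    intro x y
    have : ∀ p : (U x ⊓ U y : X.Opens),
        ∃ (W : X.Opens) (_ : p.1 ∈ W), IsAffineOpen W ∧ W ≤ U x ⊓ U y := by
      rintro ⟨p, hp⟩
      obtain ⟨_, ⟨W, hW, rfl⟩, hpW, hWle⟩ :=
        X.isBasis_affineOpens.exists_subset_of_mem_open hp (U x ⊓ U y).isOpen
      exact ⟨W, hpW, hW, hWle⟩
    choose W hpW hW hWle using this
    refine associated_of_cover W hWle (fun p hp => Opens.mem_iSup.mpr ⟨⟨p, hp⟩, hpW _⟩) _ _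
      ((hreg y).res _) fun p => ?_
    rw [res_res, res_res]
    refine associated_generators (hreg y _ _) ?_
    rw [← hspan y _ (hW p) ((hWle p).trans inf_le_right),
      ← hspan x _ (hW p) ((hWle p).trans inf_le_left)]
  let E : Equations X := ⟨U, hm, f, hreg, hassoc⟩
  exact ⟨⟨E.line, E.one, fun x W hW hx => hreg x W hx, fun x W hW hx => hspan x W hW hx⟩⟩

/-- In a pushout of rings along a surjection, the kernel is generated by the image of the
kernel. -/
theorem ker_inl_of_isPushout {A B C P : CommRingCat.{u}} {g : A ⟶ B} {f : A ⟶ C} {inl : B ⟶ P}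
    {inr : C ⟶ P} (h : IsPushout g f inl inr) (hf : Function.Surjective f.hom) :
    RingHom.ker inl.hom = (RingHom.ker f.hom).map g.hom := by
  refine le_antisymm (fun b hb => ?_) (Ideal.map_le_iff_le_comap.mpr fun a ha => ?_)
  · let mk : B ⟶ CommRingCat.of (B ⧸ (RingHom.ker f.hom).map g.hom) :=
      CommRingCat.ofHom (Ideal.Quotient.mk _)
    have hle : RingHom.ker f.hom ≤ RingHom.ker (g ≫ mk).hom := fun a ha =>
      RingHom.mem_ker.mpr <| show Ideal.Quotient.mk _ (g.hom a) = 0 from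
        Ideal.Quotient.eq_zero_iff_mem.mpr (Ideal.mem_map_of_mem g.hom ha)
    let φ : C →+* B ⧸ (RingHom.ker f.hom).map g.hom :=
      RingHom.liftOfSurjective f.hom hf
        (⟨(g ≫ mk).hom, hle⟩ : {q : A →+* B ⧸ (RingHom.ker f.hom).map g.hom //
          RingHom.ker f.hom ≤ RingHom.ker q})
    have w : g ≫ mk = f ≫ CommRingCat.ofHom φ := by
      ext a
      exact (f.hom.liftOfRightInverse_comp_apply _ (Function.rightInverse_surjInv hf)
        (⟨(g ≫ mk).hom, hle⟩ : {q : A →+* B ⧸ (RingHom.ker f.hom).map g.hom //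
          RingHom.ker f.hom ≤ RingHom.ker q}) a).symm
    have := congr($(h.inl_desc mk (CommRingCat.ofHom φ) w).hom b)
    rw [RingHom.mem_ker] at hb
    rw [CommRingCat.hom_comp, RingHom.comp_apply, hb, map_zero] at this
    exact Ideal.Quotient.eq_zero_iff_mem.mp this.symm
  · show inl.hom (g.hom a) = 0
    rw [← RingHom.comp_apply, ← CommRingCat.hom_comp, h.w, CommRingCat.hom_comp, RingHom.comp_apply,
      RingHom.mem_ker.mp ha, map_zero]

/-- The kernel of a base change of a closed immersion on affine opens. -/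
theorem ker_app_of_isPullback {Y Z Z' : Scheme.{u}} {i : Z' ⟶ X} {σ : Z' ⟶ Z} {f : X ⟶ Y}
    {i₀ : Z ⟶ Y} [IsClosedImmersion i₀] (sq : IsPullback i σ f i₀) {V : Y.Opens}
    (hV : IsAffineOpen V) {W : X.Opens} (hW : IsAffineOpen W) (e : W ≤ f ⁻¹ᵁ V) :
    RingHom.ker (i.app W).hom = (RingHom.ker (i₀.app V).hom).map (f.appLE V W e).hom := by
  have hUY : i ⁻¹ᵁ W = i ⁻¹ᵁ W ⊓ σ ⁻¹ᵁ (i₀ ⁻¹ᵁ V) := by
    refine le_antisymm (le_inf le_rfl ?_) inf_le_left
    rw [← Scheme.Hom.comp_preimage, ← sq.w, Scheme.Hom.comp_preimage]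
    exact i.preimage_mono e
  have h := (isIso_pushoutSection_iff sq (US := V) (UT := i₀ ⁻¹ᵁ V) (UX := W) le_rfl e hUY).mp
    (isIso_pushoutSection_of_isAffineOpen sq le_rfl e hUY hV (hV.preimage i₀) hW)
  have hs : Function.Surjective (i₀.appLE V (i₀ ⁻¹ᵁ V) le_rfl).hom := by
    rw [← Scheme.Hom.app_eq_appLE]
    exact i₀.app_surjective V hV
  have := ker_inl_of_isPushout h hs
  rwa [← Scheme.Hom.app_eq_appLE, ← Scheme.Hom.app_eq_appLE] at this

/-- Pullback of a divisor along a morphism which keeps its equations regular. -/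
theorem exists_lineDivisor_of_isPullback {Y Z Z' : Scheme.{u}} {i : Z' ⟶ X} {σ : Z' ⟶ Z}
    {f : X ⟶ Y} {i₀ : Z ⟶ Y} [IsClosedImmersion i₀] (sq : IsPullback i σ f i₀)
    (D : LineDivisor i₀)
    (H : ∀ (y : Y) (V : Y.Opens) (hV : IsAffineOpen V) (hy : V ≤ D.L.U y) (W : X.Opens),
      IsAffineOpen W → ∀ e : W ≤ f ⁻¹ᵁ V,
      RingHom.ker (i.app W).hom = Ideal.span {f.appLE V W e (D.s.coord y V le_top hy)} →
        IsRegular (f.appLE V W e (D.s.coord y V le_top hy))) :
    ∃ E : LineDivisor i, E.cls = LinePic.pullback f D.cls := by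
  have : IsClosedImmersion i := MorphismProperty.of_isPullback sq.flip ‹_›
  let s : (D.L.pull f).Sec ⊤ := D.s.pull f (show (⊤ : X.Opens) ≤ f ⁻¹ᵁ ⊤ from le_top)
  have hloc : ∀ (x : X) (W : X.Opens) (hx : W ≤ (D.L.pull f).U x) (p : X), p ∈ W →
      ∃ (W' : X.Opens) (_ : p ∈ W') (h : W' ≤ W), IsAffineOpen W' ∧
        ∀ (W'' : X.Opens) (_ : IsAffineOpen W'') (h' : W'' ≤ W'),
          RingHom.ker (i.app W'').hom =
              Ideal.span {res (h'.trans h) (s.coord x W le_top hx)} ∧
            IsRegular (res (h'.trans h) (s.coord x W le_top hx)) := by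
    intro x W hx p hp
    obtain ⟨_, ⟨V, hV, rfl⟩, hpV, hVle⟩ :=
      Y.isBasis_affineOpens.exists_subset_of_mem_open (hx hp) (D.L.U (f x)).isOpen
    obtain ⟨_, ⟨W', hW', rfl⟩, hpW', hWle⟩ := X.isBasis_affineOpens.exists_subset_of_mem_open
      (show p ∈ ((W ⊓ f ⁻¹ᵁ V : X.Opens) : Set X) from ⟨hp, hpV⟩) (W ⊓ f ⁻¹ᵁ V).isOpen
    refine ⟨W', hpW', fun q hq => (hWle hq).1, hW', fun W'' hW'' h' => ?_⟩
    have e : W'' ≤ f ⁻¹ᵁ V := fun q hq => (hWle (h' hq)).2
    have hc : res (h'.trans fun q hq => (hWle hq).1) (s.coord x W le_top hx) =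
        f.appLE V W'' e (D.s.coord (f x) V le_top hVle) := by
      rw [s.coord_res]
      exact D.s.coord_pull f _ x W'' _ _ V le_top hVle e
    have hk : RingHom.ker (i.app W'').hom =
        Ideal.span {f.appLE V W'' e (D.s.coord (f x) V le_top hVle)} := by
      rw [ker_app_of_isPullback sq hV hW'' e, D.ker_eq (f x) V hV hVle, Ideal.map_span,
        Set.image_singleton]
    rw [hc]
    exact ⟨hk, H _ V hV hVle W'' hW'' e hk⟩
  refine ⟨⟨D.L.pull f, s, fun x W hW hx => ?_, fun x W hW hx => ?_⟩, rfl⟩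
  · have hr : RegularOn (s.coord x W le_top hx) := regularOn_of_affine _ fun p hp => by
      obtain ⟨W', hpW', h, -, hW'⟩ := hloc x W hx p hp
      exact ⟨W', hpW', h, fun W'' hW'' h' => (hW' W'' hW'' h').2⟩
    simpa [res_self] using hr W le_rfl
  · refine ideal_eq_of_locally hW fun p hp => ?_
    obtain ⟨W', hpW', h, ha, hW'⟩ := hloc x W hx p hp
    refine ⟨W', hpW', h, ?_⟩
    rw [map_ker_app i ha hW h, (hW' W' ha le_rfl).1, Ideal.map_span, Set.image_singleton]

end Fermat.Agent.Jacobian
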