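/-
The diagonal of a smooth curve is a divisor.
-/
import Fermat.Agent.Jacobian.Curve.Basics
import Fermat.Agent.Jacobian.Curve.Local

set_option autoImplicit false
set_option linter.unusedVariables false

universe u

open CategoryTheory CategoryTheory.Limits AlgebraicGeometry TopologicalSpace Opposite
open Fermat.Agent.AbVar (secMap secAlgebra prodRect prodRectMap)
open scoped TensorProduct

noncomputable section

namespace Fermat.Agent.Jacobian

/-- A nonzero function on an integral scheme is regular on every open. -/
theorem regularOn_of_ne_zero {X : Scheme.{u}} [IsIntegral X] {U : X.Opens} (f : Γ(X, U))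
    (hf : f ≠ 0) : RegularOn f := by
  intro V hV
  rcases V.1.eq_empty_or_nonempty with h | h
  · have : Subsingleton Γ(X, V) :=
      CommRingCat.subsingleton_of_isTerminal (X.sheaf.isTerminalOfEqEmpty (SetLike.ext' h))
    exact ⟨fun a b _ => Subsingleton.elim a b, fun a b _ => Subsingleton.elim a b⟩
  · have : Nonempty V := h.to_subtype
    refine IsRegular.of_ne_zero ?_
    exact (map_ne_zero_iff (res hV) (map_injective_of_isIntegral X (homOfLE hV))).mpr hf

/-- The unit is regular on every open. -/
theorem regularOn_one {X : Scheme.{u}} (U : X.Opens) : RegularOn (1 : Γ(X, U)) := fun V hV => by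
  rw [map_one]
  exact isRegular_one

variable {k : Type u} [Field k] {C : Scheme.{u}} (c : C ⟶ Spec (CommRingCat.of k))

theorem diagonal_preimage_prodRect (V : C.Opens) :
    pullback.diagonal c ⁻¹ᵁ prodRect c c V V = V := by
  show pullback.diagonal c ⁻¹ᵁ (pullback.fst c c ⁻¹ᵁ V ⊓ pullback.snd c c ⁻¹ᵁ V) = V
  rw [Scheme.Hom.preimage_inf, ← Scheme.Hom.comp_preimage, ← Scheme.Hom.comp_preimage,
    pullback.diagonal_fst, pullback.diagonal_snd]
  exact inf_idem _

/-- The diagonal on a rectangle is multiplication. -/
theorem diagonal_appLE_prodRectMap (V : C.Opens) :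
    letI := secAlgebra c V
    ∀ t : Γ(C, V) ⊗[k] Γ(C, V),
      (pullback.diagonal c).appLE (prodRect c c V V) V (diagonal_preimage_prodRect c V).ge
          (prodRectMap c c V V t) = Algebra.TensorProduct.lmul' k t := by
  let := secAlgebra c V
  intro t
  induction t using TensorProduct.induction_on with
  | zero => simp
  | add x y hx hy => rw [map_add, map_add, map_add, hx, hy]
  | tmul a b =>
    rw [Fermat.Agent.AbVar.prodRectMap_tmul, map_mul, Algebra.TensorProduct.lmul'_apply_tmul,
      ← ConcreteCategory.comp_apply, ← ConcreteCategory.comp_apply, Scheme.Hom.appLE_comp_appLE,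
      Scheme.Hom.appLE_comp_appLE]
    congr 1
    · simp only [pullback.diagonal_fst]
      exact res_self le_rfl a
    · simp only [pullback.diagonal_snd]
      exact res_self le_rfl b

theorem ker_appLE_eq_ker_app {X Y : Scheme.{u}} (f : X ⟶ Y) (U : Y.Opens) (V : X.Opens)
    (h : f ⁻¹ᵁ U = V) :
    RingHom.ker (f.appLE U V h.ge).hom = RingHom.ker (f.app U).hom := by
  subst h
  rw [← Scheme.Hom.app_eq_appLE]

variable [IsAlgClosed k] [IsIntegral C] [IsProper c]

/-- The diagonal of a smooth curve is a divisor. -/
theorem nonempty_diagDivisor [SmoothOfRelativeDimension 1 c] : Nonempty (DiagDivisor c) := by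
  refine exists_lineDivisor _ fun p => ?_
  by_cases hp : p ∈ Set.range (pullback.diagonal c)
  swap
  · obtain ⟨_, ⟨W, hW, rfl⟩, hpW, hWle⟩ :=
      (pullback c c).isBasis_affineOpens.exists_subset_of_mem_open
        (show p ∈ (Set.range (pullback.diagonal c))ᶜ from hp)
        (pullback.diagonal c).isClosedEmbedding.isClosed_range.isOpen_compl
    refine ⟨W, hW, hpW, 1, regularOn_one W, ?_⟩
    have : pullback.diagonal c ⁻¹ᵁ W = ⊥ := by
      refine Opens.ext ?_
      refine Set.eq_empty_of_forall_notMem fun x hx => ?_
      exact hWle hx (Set.mem_range_self x)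
    have : Subsingleton Γ(C, pullback.diagonal c ⁻¹ᵁ W) :=
      CommRingCat.subsingleton_of_isTerminal (C.sheaf.isTerminalOfEqEmpty this)
    rw [Ideal.span_singleton_one]
    exact eq_top_iff.mpr fun a _ => Subsingleton.elim (α := Γ(C, pullback.diagonal c ⁻¹ᵁ W)) _ _
  obtain ⟨x, rfl⟩ := hp
  obtain ⟨V, hV, hxV, g, hg⟩ := exists_curveChart c x
  let := secAlgebra c V
  have : Nonempty V := ⟨⟨x, hxV⟩⟩
  have := finiteType_sec c hV
  have := Fermat.Agent.AbVar.isIntegral_product c c
  have hW := Fermat.Agent.AbVar.isAffineOpen_prodRect c c hV hV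
  have hM := Fermat.Agent.AbVar.prodRectMap_bijective c c hV hV
  set W := prodRect c c V V with hWdef
  obtain ⟨e, he, he', hK⟩ := exists_ker_lmul'_eq_span g hg
  have hker : RingHom.ker ((pullback.diagonal c).app W).hom =
      Ideal.span {prodRectMap c c V V (chartDiff g), prodRectMap c c V V e} := by
    rw [← ker_appLE_eq_ker_app _ W V (diagonal_preimage_prodRect c V)]
    have : RingHom.ker (Algebra.TensorProduct.lmul' k (S := Γ(C, V))) =
        Ideal.comap (prodRectMap c c V V) (RingHom.ker
          ((pullback.diagonal c).appLE W V (diagonal_preimage_prodRect c V).ge).hom) := by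
      ext t
      rw [RingHom.mem_ker, Ideal.mem_comap, RingHom.mem_ker, ← diagonal_appLE_prodRectMap c V t]
    rw [← Ideal.map_comap_of_surjective _ hM.2 (RingHom.ker _), ← this, hK, Ideal.map_span,
      Set.image_pair]
  let r : Γ(pullback c c, W) := 1 - prodRectMap c c V V e
  have hxr : pullback.diagonal c x ∈ (pullback c c).basicOpen r := by
    show x ∈ pullback.diagonal c ⁻¹ᵁ (pullback c c).basicOpen r
    rw [Scheme.preimage_basicOpen]
    have : (pullback.diagonal c).app W r = 1 := by
      have h0 : (pullback.diagonal c).app W (prodRectMap c c V V e) = 0 :=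
        RingHom.mem_ker.mp (hker ▸ Ideal.subset_span (by simp))
      rw [map_sub, map_one, h0, sub_zero]
    rw [this, Scheme.basicOpen_of_isUnit _ isUnit_one]
    exact (diagonal_preimage_prodRect c V).ge hxV
  let i : (pullback c c).basicOpen r ≤ W := (pullback c c).basicOpen_le r
  refine ⟨_, hW.basicOpen r, hxr, res i (prodRectMap c c V V (chartDiff g)),
    (regularOn_of_ne_zero _ ?_).res i, ?_⟩
  · rw [map_ne_zero_iff _ hM.1]
    intro h0
    obtain ⟨φ, -⟩ := Fermat.Agent.AbVar.exists_algHom_apply_ne_zero (K := k)
      (R := Γ(C, V)) one_ne_zero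
    exact evalFst_chartDiff_ne_zero g hg φ (by rw [h0, map_zero])
  · rw [← map_ker_app _ (hW.basicOpen r) hW i, hker, Ideal.map_span, Set.image_pair]
    refine le_antisymm (Ideal.span_le.mpr ?_) (Ideal.span_mono (by simp))
    rintro y (rfl | rfl)
    · exact Ideal.mem_span_singleton_self _
    · have hu : IsUnit (res i r) :=
        RingedSpace.isUnit_res_basicOpen (pullback c c).toRingedSpace r
      obtain ⟨a, ha⟩ := Ideal.mem_span_singleton'.mp he'
      have : res i (prodRectMap c c V V e) * res i r =
          res i (prodRectMap c c V V a) * res i (prodRectMap c c V V (chartDiff g)) := by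
        have h' := congrArg (fun t => res i (prodRectMap c c V V t)) ha
        simp only [map_mul, map_sub, map_one] at h'
        rw [h', map_sub, map_one]
      refine (Ideal.mul_unit_mem_iff_mem _ hu).mp ?_
      rw [this]
      exact Ideal.mul_mem_left _ _ (Ideal.mem_span_singleton_self _)

end Fermat.Agent.Jacobian
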