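/-
The divisor of a point of the curve: over fields, and of a constant point over any base.
-/
import Fermat.Agent.Jacobian.Curve.Diagonal

set_option autoImplicit false
set_option linter.unusedVariables false

universe u

open CategoryTheory CategoryTheory.Limits AlgebraicGeometry AlgebraicGeometry.RelPicard
  TopologicalSpace Opposite NeronModelInfra

noncomputable section

namespace Fermat.Agent.Jacobian

attribute [local simp] pullback.lift_fst pullback.lift_snd pullback.lift_fst_assoc
  pullback.lift_snd_assoc

variable {k : Type u} [Field k] {C : Scheme.{u}} {c : C ⟶ Spec (CommRingCat.of k)}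

/-- The graph of a point is the base change of the diagonal. -/
theorem isPullback_pointMap {T : Scheme.{u}} {t : T ⟶ Spec (CommRingCat.of k)}
    (σ : SchemeHomOver t c) :
    IsPullback (pullback.lift σ.1 (𝟙 T) (by rw [σ.2, Category.id_comp]) : T ⟶ pullback c t) σ.1
      (pointMap c σ) (pullback.diagonal c) := by
  have w : (pullback.lift σ.1 (𝟙 T) (by rw [σ.2, Category.id_comp]) : T ⟶ pullback c t) ≫
      pointMap c σ = σ.1 ≫ pullback.diagonal c := by
    ext <;> simp [pointMap]
  refine ⟨⟨w⟩, ⟨PullbackCone.IsLimit.mk w (fun s => s.fst ≫ pullback.snd c t) ?_ ?_ ?_⟩⟩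
  · intro s
    have h₁ := congrArg (· ≫ pullback.fst c c) s.condition
    have h₂ := congrArg (· ≫ pullback.snd c c) s.condition
    simp [pointMap] at h₁ h₂
    ext
    · simp [h₂, h₁]
    · simp
  · intro s
    have h₂ := congrArg (· ≫ pullback.snd c c) s.condition
    simp [pointMap] at h₂
    simp [h₂]
  · intro s m hm₁ hm₂
    simp [← hm₁]

/-- The graph of a constant point is the base change of the point. -/
theorem isPullback_rigSection {T : Scheme.{u}} (t : T ⟶ Spec (CommRingCat.of k))
    (P : SchemeHomOver (𝟙 (Spec (CommRingCat.of k))) c) :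
    IsPullback (rigSection c t P) t (pullback.fst c t) P.1 := by
  have w : rigSection c t P ≫ pullback.fst c t = t ≫ P.1 := pullback.lift_fst _ _ _
  refine ⟨⟨w⟩, ⟨PullbackCone.IsLimit.mk w (fun s => s.fst ≫ pullback.snd c t) ?_ ?_ ?_⟩⟩
  · intro s
    have h₁ : s.fst ≫ pullback.fst c t = s.snd ≫ P.1 := s.condition
    have h₂ : s.fst ≫ pullback.fst c t ≫ c = s.snd := by
      rw [← Category.assoc, h₁, Category.assoc, P.2, Category.comp_id]
    rw [pullback.condition] at h₂
    ext
    · simp [rigSection, h₁, reassoc_of% h₂]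
    · simp [rigSection]
  · intro s
    have h₁ : s.fst ≫ pullback.fst c t = s.snd ≫ P.1 := s.condition
    rw [Category.assoc, ← pullback.condition, ← Category.assoc, h₁, Category.assoc, P.2,
      Category.comp_id]
  · intro s m hm₁ hm₂
    simp [← hm₁, rigSection]

/-- The map `C → C ×ₖ C` attached to a rational point. -/
def ratPointMap (c : C ⟶ Spec (CommRingCat.of k))
    (P : SchemeHomOver (𝟙 (Spec (CommRingCat.of k))) c) : C ⟶ pullback c c :=
  pullback.lift (𝟙 C) (c ≫ P.1) (by rw [Category.assoc, P.2, Category.comp_id, Category.id_comp])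

theorem isPullback_ratPointMap (P : SchemeHomOver (𝟙 (Spec (CommRingCat.of k))) c) :
    IsPullback P.1 P.1 (ratPointMap c P) (pullback.diagonal c) := by
  have w : P.1 ≫ ratPointMap c P = P.1 ≫ pullback.diagonal c := by
    ext <;> simp [ratPointMap, reassoc_of% P.2]
  refine ⟨⟨w⟩, ⟨PullbackCone.IsLimit.mk w (fun s => s.fst ≫ c) ?_ ?_ ?_⟩⟩
  · intro s
    have h₁ := congrArg (· ≫ pullback.fst c c) s.condition
    have h₂ := congrArg (· ≫ pullback.snd c c) s.condition
    simp [ratPointMap] at h₁ h₂
    simp only [Category.assoc]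
    exact h₂.trans h₁.symm
  · intro s
    have h₁ := congrArg (· ≫ pullback.fst c c) s.condition
    have h₂ := congrArg (· ≫ pullback.snd c c) s.condition
    simp [ratPointMap] at h₁ h₂
    simp only [Category.assoc]
    exact h₂
  · intro s m hm₁ hm₂
    simp [← hm₁, P.2]

theorem pointMap_constPt {T : Scheme.{u}} (t : T ⟶ Spec (CommRingCat.of k))
    (P : SchemeHomOver (𝟙 (Spec (CommRingCat.of k))) c) :
    pointMap c (constPt t P) = pullback.fst c t ≫ ratPointMap c P := by
  ext
  · simp [pointMap, ratPointMap]
  · simp [pointMap, ratPointMap, constPt, pullback.condition_assoc]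

/-- On an integral scheme with more than one point, the kernel of a one-point closed subscheme
is nonzero on nonempty affine opens, so its generators are regular. -/
theorem isRegular_of_ker_eq_span {X Z : Scheme.{u}} (i : Z ⟶ X) [IsClosedImmersion i]
    [IsIntegral X] [Subsingleton Z] [IsReduced Z] (hX : ∃ x y : X, x ≠ y) {W : X.Opens} (hW : IsAffineOpen W)
    (f : Γ(X, W)) (hf : RingHom.ker (i.app W).hom = Ideal.span {f}) : IsRegular f := by
  rcases W.1.eq_empty_or_nonempty with h | h
  · have : Subsingleton Γ(X, W) :=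
      CommRingCat.subsingleton_of_isTerminal (X.sheaf.isTerminalOfEqEmpty (SetLike.ext' h))
    exact ⟨fun a b _ => Subsingleton.elim a b, fun a b _ => Subsingleton.elim a b⟩
  have : Nonempty W := h.to_subtype
  refine IsRegular.of_ne_zero fun hf0 => ?_
  have hinj : Function.Injective (i.app W).hom := by
    rw [RingHom.injective_iff_ker_eq_bot, hf, hf0, Ideal.span_singleton_eq_bot]
  have hsub : (W : Set X) ⊆ Set.range i := by
    intro p hp
    by_contra hpi
    obtain ⟨r, hle, hpr⟩ := hW.exists_basicOpen_le (V := ⟨(Set.range i)ᶜ,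
      i.isClosedEmbedding.isClosed_range.isOpen_compl⟩) ⟨p, hpi⟩ hp
    have hempty : i ⁻¹ᵁ X.basicOpen r = ⊥ :=
      Opens.ext (Set.eq_empty_of_forall_notMem fun z hz => hle hz (Set.mem_range_self z))
    rw [Scheme.preimage_basicOpen] at hempty
    rw [basicOpen_eq_bot_iff] at hempty
    have : r = 0 := hinj (hempty.trans (map_zero _).symm)
    rw [this, Scheme.basicOpen_zero] at hpr
    exact hpr
  obtain ⟨z, -⟩ : ∃ z : Z, True := by
    obtain ⟨p, hp⟩ := h
    obtain ⟨z, -⟩ := hsub hp
    exact ⟨z, trivial⟩
  have hW' : (W : Set X) ⊆ {i z} := fun p hp => by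
    obtain ⟨z', rfl⟩ := hsub hp
    rw [Subsingleton.elim z' z]
    exact Set.mem_singleton _
  have hgen : genericPoint X = i z :=
    hW' ((genericPoint_spec X).mem_open_set_iff W.isOpen |>.mpr (by simpa using h))
  obtain ⟨x, y, hxy⟩ := hX
  have hcl : IsClosed ({i z} : Set X) := by
    have : Set.range i = {i z} :=
      Set.eq_singleton_iff_unique_mem.mpr ⟨Set.mem_range_self z, by
        rintro _ ⟨z', rfl⟩; rw [Subsingleton.elim z' z]⟩
    exact this ▸ i.isClosedEmbedding.isClosed_range
  have huniv : ∀ q : X, q = i z := fun q => by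
    have := (genericPoint_spec X).specializes (show q ∈ (⊤ : Set X) from trivial)
    rw [hgen] at this
    exact this.mem_closed hcl (Set.mem_singleton _)
  exact hxy ((huniv x).trans (huniv y).symm)

theorem isRegular_flat {R S : Type u} [CommRing R] [CommRing S] {f : R →+* S} (hf : f.Flat)
    {a : R} (ha : IsRegular a) : IsRegular (f a) := by
  let := f.toAlgebra
  have : Module.Flat R S := hf
  have h := IsSMulRegular.of_flat (S := S) (IsLeftRegular.isSMulRegular ha.left)
  have hl : IsLeftRegular (f a) := fun x y hxy => h (by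
    show a • x = a • y
    simpa [Algebra.smul_def, RingHom.algebraMap_toAlgebra] using hxy)
  exact ⟨hl, fun x y hxy => hl (by
    show f a * x = f a * y
    rw [mul_comm _ x, mul_comm _ y]; exact hxy)⟩

variable [IsAlgClosed k] [IsIntegral C] [IsProper c] [SmoothOfRelativeDimension 1 c]

variable (c) in
/-- The divisors of points. -/
theorem pointDivisorProperty (D : DiagDivisor c) : PointDivisorProperty c D := by
  refine ⟨fun K _ _ t σ => ?_, fun {T} t P => ?_⟩
  · have := Fermat.Agent.AbVar.isIntegral_product c t
    have hsq := isPullback_pointMap σ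
    have : IsClosedImmersion (pullback.lift σ.1 (𝟙 _) (by rw [σ.2, Category.id_comp]) :
        Spec (CommRingCat.of K) ⟶ pullback c t) := MorphismProperty.of_isPullback hsq.flip inferInstance
    refine exists_lineDivisor_of_isPullback hsq D fun y V hV hy W hW e hk => ?_
    refine isRegular_of_ker_eq_span _ ?_ hW _ hk
    obtain ⟨a, b, hab⟩ := exists_ne_point c
    obtain ⟨p, hp, -⟩ := Fermat.Agent.AbVar.exists_point_over c t a (IsLocalRing.closedPoint K)
    obtain ⟨q, hq, -⟩ := Fermat.Agent.AbVar.exists_point_over c t b (IsLocalRing.closedPoint K)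
    exact ⟨p, q, fun h => hab (hp.symm.trans (h ▸ hq))⟩
  · have : IsClosedImmersion P.1 := isClosedImmersion_of_comp_eq_id c P.1 P.2
    obtain ⟨E₁, hE₁⟩ := exists_lineDivisor_of_isPullback (isPullback_ratPointMap P) D
      fun y V hV hy W hW e hk => isRegular_of_ker_eq_span _ (exists_ne_point c) hW _ hk
    obtain ⟨E, hE⟩ := exists_lineDivisor_of_isPullback (isPullback_rigSection t P) E₁
      fun y V hV hy W hW e hk => by
        have : Flat t := inferInstance
        exact isRegular_flat ((pullback.fst c t).flat_appLE hV hW e) (E₁.regular y V hV hy)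
    refine ⟨E, ?_⟩
    rw [hE, hE₁, LinePic.pullback_pullback, ← pointMap_constPt]
    rfl

end Fermat.Agent.Jacobian
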